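import Mathlib
import Fermat.Agent.H9.E6.Interfaces

/-!
# P-ES / E6-SURJ (row 638): the Gauss ring of the model field reduces onto `F_{k₁}`

For every field `K₁ ⊇ ℚ` and every valuation subring `A₁` of `K₁` with residue field `k₁`, every
element of `F_{k₁} = k₁(j(q^d) : d ∣ N) ⊆ k₁((q))` is the reduction of an element of
`E₁ = K₁(j(q^d) : d ∣ N)` lying in the Gauss ring of `K₁((q))`.
(Generalisation of `H66.gaussSurj` from `(ℚ̄, A)` to `(K₁, A₁)`.)
-/

set_option autoImplicit false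
set_option linter.unusedSectionVars false

noncomputable section

namespace Fermat.Agent.H48.E6

open ModularCurve AlgebraicCurve
open Fermat.Agent.H66 (vGaussRing vGaussRed vIota vRho)

section

variable {K₁ : Type} [Field K₁] [Algebra ℚ K₁] (A₁ : ValuationSubring K₁) (N : ℕ)

/-- the generators `j(q^d)` of the model field. -/
theorem qExpand_jqModC_mem_model {d : ℕ} [NeZero d] (hd : d ∣ N) :
    qExpand K₁ d (jqModC K₁) ∈ laurentBaseChange K₁ (modularFunctionFieldFull N) := by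
  have h : qExpand K₁ d (jqModC K₁) = coeffEmb K₁ (qExpand ℚ d jq) := by
    rw [coeffEmb, coeffMap_qExpand, ← jqModC_rat, coeffMap_jqModC]
  rw [h]
  exact coeffEmb_mem_laurentBaseChange _ (jqd_mem_full N hd)

theorem qExpand_jqModC_eq_vIota_model (d : ℕ) [NeZero d] :
    qExpand K₁ d (jqModC K₁) = vIota A₁ (qExpand ↥A₁ d (jqModC ↥A₁)) := by
  rw [vIota, coeffMap_qExpand, coeffMap_jqModC]

theorem vRho_qExpand_jqModC_model (d : ℕ) [NeZero d] :
    vRho A₁ (qExpand ↥A₁ d (jqModC ↥A₁)) =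
      qExpand (IsLocalRing.ResidueField ↥A₁) d (jqModC (IsLocalRing.ResidueField ↥A₁)) := by
  rw [vRho, coeffMap_qExpand, coeffMap_jqModC]

end

/-- **E6-SURJ** (row 638). -/
theorem modelRedSurj : Fermat.Agent.H9.E6.ModelRedSurjStatement := by
  intro N _ K₁ _ _ A₁ z hz
  rw [modularFunctionFieldFullC] at hz
  induction hz using IntermediateField.adjoin_induction with
  | mem x hx =>
    obtain ⟨d, hd, hdN, rfl⟩ := hx
    have := hd
    have hmem : qExpand K₁ d (jqModC K₁) ∈ vGaussRing A₁ := by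
      rw [qExpand_jqModC_eq_vIota_model A₁ d]
      exact Fermat.Agent.H66.vIota_mem_vGaussRing A₁ _
    refine ⟨qExpand K₁ d (jqModC K₁), qExpand_jqModC_mem_model N hdN, hmem, ?_⟩
    rw [← vRho_qExpand_jqModC_model A₁ d, ← Fermat.Agent.H66.vGaussRed_vIota A₁]
    congr 1
    exact Subtype.ext (qExpand_jqModC_eq_vIota_model A₁ d)
  | algebraMap c =>
    obtain ⟨a, rfl⟩ := IsLocalRing.residue_surjective c
    exact ⟨algebraMap K₁ (LaurentSeries K₁) (a : K₁),
      (laurentBaseChange K₁ (modularFunctionFieldFull N)).algebraMap_mem _,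
      Fermat.Agent.H66.algebraMap_mem_vGaussRing A₁ a.2,
      Fermat.Agent.H66.vGaussRed_algebraMap A₁ a.2⟩
  | add x y _ _ hx hy =>
    obtain ⟨a, ha, ha', rfl⟩ := hx
    obtain ⟨b, hb, hb', rfl⟩ := hy
    have hsum : a + b ∈ vGaussRing A₁ := (vGaussRing A₁).add_mem ha' hb'
    refine ⟨a + b, (laurentBaseChange K₁ (modularFunctionFieldFull N)).add_mem ha hb, hsum, ?_⟩
    have h1 : (⟨a + b, hsum⟩ : vGaussRing A₁) = ⟨a, ha'⟩ + ⟨b, hb'⟩ := Subtype.ext rfl
    rw [h1, map_add]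
  | inv x _ hx =>
    obtain ⟨a, ha, ha', rfl⟩ := hx
    by_cases h0 : vGaussRed A₁ ⟨a, ha'⟩ = 0
    · refine ⟨0, (laurentBaseChange K₁ (modularFunctionFieldFull N)).zero_mem,
        (vGaussRing A₁).zero_mem, ?_⟩
      rw [h0, inv_zero]
      exact map_zero (vGaussRed A₁)
    · have hinv := Fermat.Agent.H66.inv_mem_vGaussRing A₁ h0
      have hred := Fermat.Agent.H66.vGaussRed_inv A₁ h0
      exact ⟨_, (laurentBaseChange K₁ (modularFunctionFieldFull N)).inv_mem ha, hinv, hred⟩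
  | mul x y _ _ hx hy =>
    obtain ⟨a, ha, ha', rfl⟩ := hx
    obtain ⟨b, hb, hb', rfl⟩ := hy
    have hprod : a * b ∈ vGaussRing A₁ := (vGaussRing A₁).mul_mem ha' hb'
    refine ⟨a * b, (laurentBaseChange K₁ (modularFunctionFieldFull N)).mul_mem ha hb, hprod, ?_⟩
    have h1 : (⟨a * b, hprod⟩ : vGaussRing A₁) = ⟨a, ha'⟩ * ⟨b, hb'⟩ := Subtype.ext rfl
    rw [h1, map_mul]

end Fermat.Agent.H48.E6
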